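/-
S56 / W5 / GT: basic properties of the twisted adjoint action `tad` (helper34; used by the
leaves G1 = `GT/Average.lean` and G2 = `GT/Conj.lean`).
-/
import Fermat.Agent.S56.TW.GT.Defs

set_option autoImplicit false

namespace Fermat.Agent.S56.GT

open Matrix

variable {k : Type} [Field k]

/-- `tad g` as a `k`-linear map. -/
noncomputable def avgTadLin (g : GL (Fin 2) k) :
    Matrix (Fin 2) (Fin 2) k →ₗ[k] Matrix (Fin 2) (Fin 2) k where
  toFun := tad g
  map_add' X Y := by
    unfold tad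
    rw [Matrix.mul_add, Matrix.add_mul, smul_add]
  map_smul' a X := by
    unfold tad
    rw [Matrix.mul_smul, Matrix.smul_mul, smul_comm, RingHom.id_apply]

@[simp] theorem avgTadLin_apply (g : GL (Fin 2) k) (X : Matrix (Fin 2) (Fin 2) k) :
    avgTadLin g X = tad g X := rfl

theorem avg_tad_add (g : GL (Fin 2) k) (X Y : Matrix (Fin 2) (Fin 2) k) :
    tad g (X + Y) = tad g X + tad g Y := (avgTadLin g).map_add X Y

theorem avg_tad_sub (g : GL (Fin 2) k) (X Y : Matrix (Fin 2) (Fin 2) k) :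
    tad g (X - Y) = tad g X - tad g Y := (avgTadLin g).map_sub X Y

theorem avg_tad_neg (g : GL (Fin 2) k) (X : Matrix (Fin 2) (Fin 2) k) :
    tad g (-X) = -tad g X := (avgTadLin g).map_neg X

theorem avg_tad_zero (g : GL (Fin 2) k) : tad g (0 : Matrix (Fin 2) (Fin 2) k) = 0 :=
  (avgTadLin g).map_zero

theorem avg_tad_smul (g : GL (Fin 2) k) (a : k) (X : Matrix (Fin 2) (Fin 2) k) :
    tad g (a • X) = a • tad g X := (avgTadLin g).map_smul a X

theorem avg_tad_sum {ι : Type*} (g : GL (Fin 2) k) (s : Finset ι)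
    (f : ι → Matrix (Fin 2) (Fin 2) k) :
    tad g (∑ i ∈ s, f i) = ∑ i ∈ s, tad g (f i) := map_sum (avgTadLin g) f s

theorem avg_tad_one (X : Matrix (Fin 2) (Fin 2) k) : tad (1 : GL (Fin 2) k) X = X := by
  unfold tad
  simp

theorem avg_tad_mul (g h : GL (Fin 2) k) (X : Matrix (Fin 2) (Fin 2) k) :
    tad (g * h) X = tad g (tad h X) := by
  unfold tad
  rw [map_mul, _root_.mul_inv_rev, Matrix.mul_smul, Matrix.smul_mul, smul_smul]
  simp only [Units.val_mul, Matrix.mul_assoc]

theorem avg_trace_tad (g : GL (Fin 2) k) (X : Matrix (Fin 2) (Fin 2) k) :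
    (tad g X).trace = ((Matrix.GeneralLinearGroup.det g : kˣ) : k) * X.trace := by
  unfold tad
  rw [Matrix.trace_smul, smul_eq_mul, Matrix.trace_mul_cycle]
  congr 2
  have h : ((g⁻¹ : GL (Fin 2) k) : Matrix (Fin 2) (Fin 2) k) * (g : Matrix (Fin 2) (Fin 2) k)
      = 1 := by
    rw [← Units.val_mul, inv_mul_cancel, Units.val_one]
  rw [h, Matrix.one_mul]

theorem avg_trace_tad_eq_zero (g : GL (Fin 2) k) {X : Matrix (Fin 2) (Fin 2) k}
    (hX : X.trace = 0) : (tad g X).trace = 0 := by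
  rw [avg_trace_tad, hX, mul_zero]

/-- The coboundary of `X` is a twisted cocycle (on the whole group). -/
theorem avg_cob_mul (g h : GL (Fin 2) k) (X : Matrix (Fin 2) (Fin 2) k) :
    tad (g * h) X - X = (tad g X - X) + tad g (tad h X - X) := by
  rw [avg_tad_mul, avg_tad_sub]
  abel

end Fermat.Agent.S56.GT
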